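import Mathlib
import Fermat.Agent.H22.ES.KLSetting

/-!
# P-ES / KL-K-2 (row 399), part 3: the Gauss closure in polynomial form

`IntX x y` : `y` is integral over `A[X]` acting through `X ↦ x`;
`GC ϖ x y` : `∃ H ∈ A[X]`, `ϖ ∤ H`, `H(x) y` integral over `A[X]`.
For `x` transcendental over `A`: `y ∈ gaussClosure A E ϖ x ↔ GC ϖ x y`.
-/

set_option autoImplicit false
set_option linter.unusedSectionVars false

open Polynomial

namespace Fermat.Agent.H87.KL

open Fermat.Agent.H22.KL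
open Fermat.Agent.H67.KLConn (PiDvd)

section Basic

variable {A : Type} [CommRing A] {E : Type} [Field E] [Algebra A E]

/-- the ring homomorphism `A[X] → E`, `X ↦ x`. -/
noncomputable def evX (x : E) : A[X] →+* E := (aeval x : A[X] →ₐ[A] E).toRingHom

theorem evX_apply (x : E) (H : A[X]) : evX x H = aeval x H := rfl

/-- `y` is integral over `A[x]`. -/
def IntX (x : E) (y : E) : Prop := (evX (A := A) x).IsIntegralElem y

/-- polynomial form of the Gauss closure. -/
def GC (ϖ : A) (x : E) (y : E) : Prop :=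
  ∃ H : A[X], ¬ (C ϖ ∣ H) ∧ IntX (A := A) x (aeval x H * y)

theorem mem_chartRing_iff (x h : E) :
    h ∈ chartRing A E x ↔ ∃ H : A[X], aeval x H = h := by
  unfold chartRing
  rw [Algebra.adjoin_singleton_eq_range_aeval]
  exact AlgHom.mem_range _

theorem aeval_mem_chartRing (x : E) (H : A[X]) : aeval x H ∈ chartRing A E x :=
  (mem_chartRing_iff x _).2 ⟨H, rfl⟩

theorem piDvd_aeval_iff {x : E} (hx : Transcendental A x) (ϖ : A) (H : A[X]) :
    PiDvd ϖ (chartRing A E x) 1 (aeval x H) ↔ C ϖ ∣ H := by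
  have hinj : Function.Injective (aeval x : A[X] →ₐ[A] E) :=
    transcendental_iff_injective.1 hx
  constructor
  · rintro ⟨r, hr, h⟩
    obtain ⟨G, rfl⟩ := (mem_chartRing_iff x r).1 hr
    refine ⟨G, hinj ?_⟩
    rw [h, pow_one, map_mul, aeval_C, Algebra.smul_def]
  · rintro ⟨G, rfl⟩
    refine ⟨aeval x G, aeval_mem_chartRing x G, ?_⟩
    rw [pow_one, map_mul, aeval_C, Algebra.smul_def]

theorem mem_chartClosure_iff (x y : E) :
    y ∈ chartClosure A E x ↔ IntX (A := A) x y := by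
  unfold chartClosure
  rw [Subalgebra.mem_restrictScalars, mem_integralClosure_iff]
  -- integrality over the subalgebra `A[x]` versus over `A[X]`
  set S : Subalgebra A E := chartRing A E x with hS
  have hrange : ∀ H : A[X], aeval x H ∈ S := fun H => aeval_mem_chartRing x H
  let g : A[X] →+* S := (evX (A := A) x).codRestrict S.toSubring hrange
  have hg : Function.Surjective g := by
    rintro ⟨s, hs⟩
    obtain ⟨H, rfl⟩ := (mem_chartRing_iff x s).1 hs
    exact ⟨H, rfl⟩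
  have hcomp : (algebraMap S E).comp g = evX (A := A) x := by
    ext <;> rfl
  constructor
  · rintro ⟨p, hp, hpy⟩
    obtain ⟨q, hq, -, hqm⟩ := Polynomial.lifts_and_natDegree_eq_and_monic
      (p := p) ((Polynomial.mem_lifts p).2 (Polynomial.map_surjective g hg p)) hp
    refine ⟨q, hqm, ?_⟩
    rw [← hcomp, ← Polynomial.eval₂_map, hq]
    exact hpy
  · rintro ⟨q, hq, hqy⟩
    refine ⟨q.map g, hq.map g, ?_⟩
    rw [Polynomial.eval₂_map, hcomp]
    exact hqy

theorem mem_gaussClosure_iff {x : E} (hx : Transcendental A x) (ϖ : A) (y : E) :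
    y ∈ gaussClosure A E ϖ x ↔ GC ϖ x y := by
  constructor
  · rintro ⟨h, hh, hnd, hint⟩
    obtain ⟨H, rfl⟩ := (mem_chartRing_iff x h).1 hh
    exact ⟨H, fun hd => hnd ((piDvd_aeval_iff hx ϖ H).2 hd), (mem_chartClosure_iff x _).1 hint⟩
  · rintro ⟨H, hnd, hint⟩
    exact ⟨aeval x H, aeval_mem_chartRing x H,
      fun hd => hnd ((piDvd_aeval_iff hx ϖ H).1 hd), (mem_chartClosure_iff x _).2 hint⟩

/-! ### closure properties of `IntX` -/

theorem IntX.map (x : E) (H : A[X]) : IntX (A := A) x (aeval x H) :=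
  (evX (A := A) x).isIntegralElem_map

theorem IntX.add {x y z : E} (hy : IntX (A := A) x y) (hz : IntX (A := A) x z) :
    IntX (A := A) x (y + z) :=
  RingHom.IsIntegralElem.add _ hy hz

theorem IntX.mul {x y z : E} (hy : IntX (A := A) x y) (hz : IntX (A := A) x z) :
    IntX (A := A) x (y * z) :=
  RingHom.IsIntegralElem.mul _ hy hz

theorem IntX.of_pow {x y : E} {n : ℕ} (hn : 0 < n) (hy : IntX (A := A) x (y ^ n)) :
    IntX (A := A) x y := by
  let _ : Algebra A[X] E := (evX (A := A) x).toAlgebra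
  have h : IsIntegral A[X] (y ^ n) := hy
  exact IsIntegral.of_pow hn h

/-- if `z` is integral over `A[x]` and `ϖ z = H(x)` then `ϖ ∣ H`. -/
theorem dvd_of_intX [IsDomain A] {x : E} (hx : Transcendental A x) {ϖ : A} (hϖ : Prime ϖ)
    {z : E} (hz : IntX (A := A) x z) {H : A[X]} (h : algebraMap A E ϖ * z = aeval x H) :
    C ϖ ∣ H := by
  have hinj : Function.Injective (evX (A := A) x) := transcendental_iff_injective.1 hx
  obtain ⟨p, hp, hpz⟩ := hz
  have h1 : C ϖ ∣ H ^ p.natDegree := by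
    refine Polynomial.dvd_pow_natDegree_of_eval₂_eq_zero hinj hp (C ϖ) H z hpz ?_
    rw [evX_apply, aeval_C, h]
    rfl
  exact (Polynomial.prime_C_iff.2 hϖ).dvd_of_dvd_pow h1

end Basic

section GCProps

variable {A : Type} [CommRing A] [IsDomain A] {E : Type} [Field E] [Algebra A E]

theorem GC.const (ϖ : A) (hϖ : Prime ϖ) (x : E) (a : A) : GC ϖ x (algebraMap A E a) := by
  refine ⟨1, ?_, ?_⟩
  · intro h
    have := isUnit_of_dvd_one h
    rw [Polynomial.isUnit_C] at this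
    exact hϖ.not_isUnit this
  · rw [map_one, one_mul, ← aeval_C (R := A) x a]
    exact IntX.map x (C a)

theorem GC.add {ϖ : A} (hϖ : Prime ϖ) {x y z : E} (hy : GC ϖ x y) (hz : GC ϖ x z) :
    GC ϖ x (y + z) := by
  obtain ⟨H₁, h₁, i₁⟩ := hy
  obtain ⟨H₂, h₂, i₂⟩ := hz
  refine ⟨H₁ * H₂, ?_, ?_⟩
  · intro hd
    rcases (Polynomial.prime_C_iff.2 hϖ).dvd_or_dvd hd with h | h
    · exact h₁ h
    · exact h₂ h
  · have : aeval x (H₁ * H₂) * (y + z) = aeval x H₂ * (aeval x H₁ * y) +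
        aeval x H₁ * (aeval x H₂ * z) := by
      rw [map_mul]; ring
    rw [this]
    exact ((IntX.map x H₂).mul i₁).add ((IntX.map x H₁).mul i₂)

theorem GC.mul {ϖ : A} (hϖ : Prime ϖ) {x y z : E} (hy : GC ϖ x y) (hz : GC ϖ x z) :
    GC ϖ x (y * z) := by
  obtain ⟨H₁, h₁, i₁⟩ := hy
  obtain ⟨H₂, h₂, i₂⟩ := hz
  refine ⟨H₁ * H₂, ?_, ?_⟩
  · intro hd
    rcases (Polynomial.prime_C_iff.2 hϖ).dvd_or_dvd hd with h | h
    · exact h₁ h
    · exact h₂ h
  · have : aeval x (H₁ * H₂) * (y * z) = (aeval x H₁ * y) * (aeval x H₂ * z) := by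
      rw [map_mul]; ring
    rw [this]
    exact i₁.mul i₂

theorem GC.pow {ϖ : A} (hϖ : Prime ϖ) {x y : E} (hy : GC ϖ x y) (n : ℕ) :
    GC ϖ x (y ^ n) := by
  induction n with
  | zero =>
    rw [pow_zero, ← map_one (algebraMap A E)]
    exact GC.const ϖ hϖ x 1
  | succ n ih =>
    rw [pow_succ]
    exact ih.mul hϖ hy

/-- polynomials in an element of the Gauss closure lie in the Gauss closure. -/
theorem GC.poly {ϖ : A} (hϖ : Prime ϖ) {x y : E} (hy : GC ϖ x y) (P : A[X]) :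
    GC ϖ x (Polynomial.aeval y P) := by
  induction P using Polynomial.induction_on' with
  | add p q hp hq =>
    rw [map_add]
    exact hp.add hϖ hq
  | monomial n a =>
    rw [Polynomial.aeval_monomial]
    exact (GC.const ϖ hϖ x a).mul hϖ (hy.pow hϖ n)

/-- roots: if `y ^ n` lies in the Gauss closure (`n > 0`), so does `y`. -/
theorem GC.of_pow {ϖ : A} (hϖ : Prime ϖ) {x y : E} {n : ℕ} (hn : 0 < n)
    (hy : GC ϖ x (y ^ n)) : GC ϖ x y := by
  obtain ⟨H, h, i⟩ := hy
  refine ⟨H, h, IntX.of_pow hn ?_⟩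
  have : (aeval x H * y) ^ n = aeval x (H ^ (n - 1)) * (aeval x H * y ^ n) := by
    rw [mul_pow, map_pow, ← mul_assoc, ← pow_succ, Nat.sub_add_cancel hn]
  rw [this]
  exact (IntX.map x _).mul i

/-- `1 ∉ ϖ C`. -/
theorem not_piDvdSet_one {x : E} (hx : Transcendental A x) {ϖ : A} (hϖ : Prime ϖ) :
    ¬ PiDvdSet A E ϖ (gaussClosure A E ϖ x) 1 := by
  rintro ⟨c, hc, h1⟩
  obtain ⟨H, hnd, hint⟩ := (mem_gaussClosure_iff hx ϖ c).1 hc
  refine hnd (dvd_of_intX hx hϖ hint ?_)
  rw [← mul_assoc, mul_comm (algebraMap A E ϖ), mul_assoc, ← h1, mul_one]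

end GCProps

end Fermat.Agent.H87.KL
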