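import Mathlib

/-!
# P-ES / KL-K-2 (row 399), part 1: Lagrange idempotents modulo `X ^ r - 1`

`lagr rinv ρ r = rinv * ∑_{i<r} ρ^i X^i` (with `rinv * r = 1`, `ρ ^ r = 1`) takes the value `1` at
`μ` with `ρ μ = 1` and `0` at the other `r`-th roots of unity.  Hence
`X ^ r - 1 ∣ lagr ^ 2 - lagr` and `X ^ r - 1 ∣ lagr ρ * lagr ρ'` for `ρ ≠ ρ'`.
-/

set_option autoImplicit false

open Polynomial

namespace Fermat.Agent.H87.KL

variable {A : Type*} [CommRing A]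

/-- the Lagrange polynomial `rinv * ∑_{i<r} ρ^i X^i`. -/
noncomputable def lagr (rinv ρ : A) (r : ℕ) : A[X] :=
  C rinv * ∑ i ∈ Finset.range r, C (ρ ^ i) * X ^ i

theorem eval_lagr (rinv ρ μ : A) (r : ℕ) :
    (lagr rinv ρ r).eval μ = rinv * ∑ i ∈ Finset.range r, (ρ * μ) ^ i := by
  unfold lagr
  rw [eval_mul, eval_C, eval_finsetSum]
  congr 1
  refine Finset.sum_congr rfl fun i _ => ?_
  rw [eval_mul, eval_C, eval_pow, eval_X, mul_pow]

theorem eval_lagr_of_eq_one {rinv ρ μ : A} {r : ℕ} (hr : rinv * (r : A) = 1) (h : ρ * μ = 1) :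
    (lagr rinv ρ r).eval μ = 1 := by
  rw [eval_lagr, h]
  simp only [one_pow, Finset.sum_const, Finset.card_range, nsmul_eq_mul, mul_one]
  exact hr

theorem eval_lagr_of_ne_one [IsDomain A] {rinv ρ μ : A} {r : ℕ} (hpow : (ρ * μ) ^ r = 1)
    (h : ρ * μ ≠ 1) : (lagr rinv ρ r).eval μ = 0 := by
  rw [eval_lagr]
  have h1 : (∑ i ∈ Finset.range r, (ρ * μ) ^ i) * (ρ * μ - 1) = 0 := by
    rw [geom_sum_mul, hpow, sub_self]
  rcases mul_eq_zero.1 h1 with h2 | h2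
  · rw [h2, mul_zero]
  · exact absurd (sub_eq_zero.1 h2) h

/-- a polynomial vanishing at all `r`-th roots of unity is divisible by `X ^ r - 1`. -/
theorem X_pow_sub_one_dvd_of_eval [IsDomain A] {ζ : A} {r : ℕ} (hr : 0 < r)
    (hζ : IsPrimitiveRoot ζ r) (P : A[X]) (hP : ∀ μ : A, μ ^ r = 1 → P.eval μ = 0) :
    (X ^ r - 1 : A[X]) ∣ P := by
  classical
  rcases eq_or_ne P 0 with rfl | hP0
  · exact dvd_zero _
  rw [X_pow_sub_one_eq_prod hr hζ]
  refine dvd_trans ?_ (prod_multiset_X_sub_C_dvd P)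
  rw [Finset.prod_eq_multiset_prod]
  refine Multiset.prod_dvd_prod_of_le (Multiset.map_le_map ?_)
  rw [Multiset.le_iff_subset (nthRootsFinset r (1 : A)).nodup]
  intro μ hμ
  have hμ' : μ ∈ nthRootsFinset r (1 : A) := hμ
  rw [mem_nthRootsFinset hr] at hμ'
  rw [mem_roots hP0]
  exact hP μ hμ'

theorem X_pow_sub_one_dvd_lagr_sq_sub [IsDomain A] {ζ : A} {r : ℕ} (hr : 0 < r)
    (hζ : IsPrimitiveRoot ζ r) {rinv ρ : A} (hrinv : rinv * (r : A) = 1) (hρ : ρ ^ r = 1) :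
    (X ^ r - 1 : A[X]) ∣ lagr rinv ρ r * lagr rinv ρ r - lagr rinv ρ r := by
  refine X_pow_sub_one_dvd_of_eval hr hζ _ fun μ hμ => ?_
  rw [eval_sub, eval_mul]
  by_cases h : ρ * μ = 1
  · rw [eval_lagr_of_eq_one hrinv h]; ring
  · rw [eval_lagr_of_ne_one (by rw [mul_pow, hρ, hμ, one_mul]) h]; ring

theorem X_pow_sub_one_dvd_lagr_mul [IsDomain A] {ζ : A} {r : ℕ} (hr : 0 < r)
    (hζ : IsPrimitiveRoot ζ r) {rinv ρ ρ' : A} (hρ : ρ ^ r = 1) (hρ' : ρ' ^ r = 1)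
    (hne : ρ ≠ ρ') :
    (X ^ r - 1 : A[X]) ∣ lagr rinv ρ r * lagr rinv ρ' r := by
  refine X_pow_sub_one_dvd_of_eval hr hζ _ fun μ hμ => ?_
  rw [eval_mul]
  by_cases h : ρ * μ = 1
  · have h' : ρ' * μ ≠ 1 := by
      intro h2
      apply hne
      have hμ0 : μ ≠ 0 := by
        rintro rfl
        rw [mul_zero] at h
        exact zero_ne_one h
      exact mul_right_cancel₀ hμ0 (h.trans h2.symm)
    rw [eval_lagr_of_ne_one (by rw [mul_pow, hρ', hμ, one_mul]) h', mul_zero]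
  · rw [eval_lagr_of_ne_one (by rw [mul_pow, hρ, hμ, one_mul]) h, zero_mul]

end Fermat.Agent.H87.KL
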