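import Mathlib
import Fermat.Agent.H87.KL.KumPoly

/-!
# P-ES / KL-K-2 (row 399), part 2: traces in a Kummer extension

`E = E₀(w)`, `w ^ r = u ∈ E₀`, `[E : E₀] = r`, `ζ ∈ E₀` a primitive `r`-th root of unity.
Then `Tr(w ^ i) = 0` for `r ∤ i`, and `Tr (rinv * ∑_{i<r} a_i w^i) = rinv * r * a_0`.
-/

set_option autoImplicit false

open Polynomial

namespace Fermat.Agent.H87.KL

section Trace

variable {E₀ E : Type*} [Field E₀] [Field E] [Algebra E₀ E]

/-- the minimal polynomial of `w` is `X ^ r - u`. -/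
theorem minpoly_kummer {r : ℕ} (hr : 0 < r) {u : E₀} {w : E}
    (hw : w ^ r = algebraMap E₀ E u) (hadj : Algebra.adjoin E₀ ({w} : Set E) = ⊤)
    (hfin : Module.finrank E₀ E = r) : minpoly E₀ w = X ^ r - C u := by
  have hfd : FiniteDimensional E₀ E := Module.finite_of_finrank_pos (by rw [hfin]; exact hr)
  have hint : IsIntegral E₀ w := IsIntegral.of_finite E₀ w
  have hroot : aeval w (X ^ r - C u : E₀[X]) = 0 := by
    rw [map_sub, map_pow, aeval_X, aeval_C, hw, sub_self]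
  have hdvd : minpoly E₀ w ∣ X ^ r - C u := minpoly.dvd E₀ w hroot
  have hmonic : (X ^ r - C u : E₀[X]).Monic := monic_X_pow_sub_C u hr.ne'
  have hdeg : (minpoly E₀ w).natDegree = r := by
    have h1 := (PowerBasis.ofAdjoinEqTop hint hadj).finrank
    rw [PowerBasis.ofAdjoinEqTop_dim, hfin] at h1
    exact h1.symm
  refine (Polynomial.eq_of_monic_of_dvd_of_natDegree_le (minpoly.monic hint) hmonic hdvd ?_).symm
  rw [hdeg, natDegree_X_pow_sub_C]

/-- the automorphism `w ↦ ζ w`. -/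
theorem exists_algEquiv_kummer {r : ℕ} (hr : 0 < r) {u : E₀} {w : E}
    (hw : w ^ r = algebraMap E₀ E u) (hadj : Algebra.adjoin E₀ ({w} : Set E) = ⊤)
    (hfin : Module.finrank E₀ E = r) (ζ : E₀) (hζ : ζ ^ r = 1) :
    ∃ σ : E ≃ₐ[E₀] E, σ w = algebraMap E₀ E ζ * w := by
  have hfd : FiniteDimensional E₀ E := Module.finite_of_finrank_pos (by rw [hfin]; exact hr)
  have hint : IsIntegral E₀ w := IsIntegral.of_finite E₀ w
  set pb := PowerBasis.ofAdjoinEqTop hint hadj with hpb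
  have hgen : pb.gen = w := PowerBasis.ofAdjoinEqTop_gen hint hadj
  have hroot : aeval (algebraMap E₀ E ζ * w) (minpoly E₀ pb.gen) = 0 := by
    rw [hgen, minpoly_kummer hr hw hadj hfin, map_sub, map_pow, aeval_X, aeval_C, mul_pow, hw,
      ← map_pow, hζ, map_one, one_mul, sub_self]
  set σ₀ : E →ₐ[E₀] E := pb.lift (algebraMap E₀ E ζ * w) hroot with hσ₀
  have hσ₀w : σ₀ w = algebraMap E₀ E ζ * w := by
    have := pb.lift_gen (algebraMap E₀ E ζ * w) hroot
    rwa [hgen] at this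
  refine ⟨AlgEquiv.ofBijective σ₀ (AlgHom.bijective σ₀), ?_⟩
  rw [AlgEquiv.coe_ofBijective]
  exact hσ₀w

/-- `Tr(w ^ i) = 0` for `r ∤ i`. -/
theorem trace_pow_kummer {r : ℕ} (hr : 0 < r) {u : E₀} {w : E}
    (hw : w ^ r = algebraMap E₀ E u) (hadj : Algebra.adjoin E₀ ({w} : Set E) = ⊤)
    (hfin : Module.finrank E₀ E = r) {ζ : E₀} (hζ : IsPrimitiveRoot ζ r) {i : ℕ}
    (hi : ¬ r ∣ i) : Algebra.trace E₀ E (w ^ i) = 0 := by
  obtain ⟨σ, hσ⟩ := exists_algEquiv_kummer hr hw hadj hfin ζ hζ.pow_eq_one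
  have h1 : Algebra.trace E₀ E (σ (w ^ i)) = Algebra.trace E₀ E (w ^ i) :=
    Algebra.trace_eq_of_algEquiv σ (w ^ i)
  rw [map_pow, hσ, mul_pow, ← map_pow, ← Algebra.smul_def, map_smul, smul_eq_mul] at h1
  have h2 : (ζ ^ i - 1) * Algebra.trace E₀ E (w ^ i) = 0 := by
    rw [sub_mul, one_mul, h1, sub_self]
  rcases mul_eq_zero.1 h2 with h3 | h3
  · exact absurd ((hζ.pow_eq_one_iff_dvd i).1 (sub_eq_zero.1 h3)) hi
  · exact h3

/-- the trace of `∑_{i<r} a_i w^i` is `r a_0`. -/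
theorem trace_sum_kummer {r : ℕ} (hr : 0 < r) {u : E₀} {w : E}
    (hw : w ^ r = algebraMap E₀ E u) (hadj : Algebra.adjoin E₀ ({w} : Set E) = ⊤)
    (hfin : Module.finrank E₀ E = r) {ζ : E₀} (hζ : IsPrimitiveRoot ζ r) (a : ℕ → E₀) :
    Algebra.trace E₀ E (∑ i ∈ Finset.range r, algebraMap E₀ E (a i) * w ^ i) = (r : E₀) * a 0 := by
  rw [map_sum]
  have hterm : ∀ i ∈ Finset.range r, Algebra.trace E₀ E (algebraMap E₀ E (a i) * w ^ i) =
      if i = 0 then (r : E₀) * a 0 else 0 := by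
    intro i hi
    rw [← Algebra.smul_def, map_smul, smul_eq_mul]
    split_ifs with h0
    · subst h0
      have h1 : Algebra.trace E₀ E (1 : E) = (r : E₀) := by
        have := Algebra.trace_algebraMap (R := E₀) (S := E) (1 : E₀)
        rw [map_one, hfin] at this
        rw [this]
        simp
      rw [pow_zero, h1, mul_comm]
    · have : ¬ r ∣ i := by
        intro hd
        have := Nat.le_of_dvd (Nat.pos_of_ne_zero h0) hd
        have := Finset.mem_range.1 hi
        omega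
      rw [trace_pow_kummer hr hw hadj hfin hζ this, mul_zero]
  rw [Finset.sum_congr rfl hterm, Finset.sum_ite_eq' (Finset.range r) 0]
  rw [if_pos (Finset.mem_range.2 hr)]

end Trace

end Fermat.Agent.H87.KL
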