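import Mathlib
import Fermat.Agent.H22.ES.KLSetting
import Fermat.Agent.H87.KL.KumPoly
import Fermat.Agent.H87.KL.KumTrace
import Fermat.Agent.H87.KL.KumGauss

/-!
# P-ES / KL-K-2 (row 399): `KummerIdempotentStatement`

The special fibre of the Kummer extension `E = E₀(w)`, `w ^ r = u`, `u ≡ 1 mod ϖ`, has a
nontrivial idempotent: `e = (1/r) ∑_{i<r} w^i`.
-/

set_option autoImplicit false
set_option linter.unusedSectionVars false

open Polynomial

namespace Fermat.Agent.H87.KL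

open Fermat.Agent.H22.KL
open Fermat.Agent.H67.KLConn (PiDvd)

section Tower

variable {A : Type} [CommRing A] [IsDomain A]
variable {E₀ E : Type} [Field E₀] [Field E] [Algebra A E₀] [Algebra A E] [Algebra E₀ E]
  [IsScalarTower A E₀ E]

theorem evX_algebraMap (x : E₀) :
    evX (A := A) (algebraMap E₀ E x) = (algebraMap E₀ E).comp (evX (A := A) x) := by
  ext H
  · simp [evX_apply]
    exact IsScalarTower.algebraMap_apply A E₀ E _
  · simp [evX_apply]

theorem aeval_algebraMap_tower (x : E₀) (H : A[X]) :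
    aeval (algebraMap E₀ E x) H = algebraMap E₀ E (aeval x H) :=
  Polynomial.aeval_algebraMap_apply E x H

theorem IntX.map_tower {x z : E₀} (hz : IntX (A := A) x z) :
    IntX (A := A) (algebraMap E₀ E x) (algebraMap E₀ E z) := by
  obtain ⟨p, hp, hpz⟩ := hz
  refine ⟨p, hp, ?_⟩
  rw [evX_algebraMap, ← Polynomial.hom_eval₂, hpz, map_zero]

theorem GC.map_tower {ϖ : A} {x y : E₀} (hy : GC ϖ x y) :
    GC ϖ (algebraMap E₀ E x) (algebraMap E₀ E y) := by
  obtain ⟨H, h, i⟩ := hy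
  refine ⟨H, h, ?_⟩
  rw [aeval_algebraMap_tower, ← map_mul]
  exact i.map_tower

theorem IntX.trace [FiniteDimensional E₀ E] {x : E₀} {y : E}
    (hy : IntX (A := A) (algebraMap E₀ E x) y) : IntX (A := A) x (Algebra.trace E₀ E y) := by
  let _ : Algebra A[X] E₀ := (evX (A := A) x).toAlgebra
  let _ : Algebra A[X] E := (evX (A := A) (algebraMap E₀ E x)).toAlgebra
  have : IsScalarTower A[X] E₀ E := IsScalarTower.of_algebraMap_eq' (evX_algebraMap x)
  have h : IsIntegral A[X] y := hy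
  exact Algebra.isIntegral_trace (R := A[X]) (L := E₀) (F := E) h

theorem GC.trace [FiniteDimensional E₀ E] {ϖ : A} {x : E₀} {c : E}
    (hc : GC ϖ (algebraMap E₀ E x) c) : GC ϖ x (Algebra.trace E₀ E c) := by
  obtain ⟨H, h, i⟩ := hc
  refine ⟨H, h, ?_⟩
  have := IntX.trace (x := x) i
  rwa [aeval_algebraMap_tower, ← Algebra.smul_def, map_smul, smul_eq_mul] at this

/-- `aeval w (lagr rinv ρ r)` as an `E₀`-combination of powers of `w`. -/
theorem aeval_lagr (w : E) (rinv ρ : A) (r : ℕ) :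
    aeval w (lagr rinv ρ r) =
      ∑ i ∈ Finset.range r, algebraMap E₀ E (algebraMap A E₀ (rinv * ρ ^ i)) * w ^ i := by
  unfold lagr
  rw [map_mul, aeval_C, map_sum, Finset.mul_sum]
  refine Finset.sum_congr rfl fun i _ => ?_
  rw [map_mul, aeval_C, map_pow (aeval w), aeval_X, ← mul_assoc, ← map_mul,
    IsScalarTower.algebraMap_apply A E₀ E]

theorem trace_aeval_lagr {r : ℕ} (hr : 0 < r) {u : E₀} {w : E}
    (hw : w ^ r = algebraMap E₀ E u) (hadj : Algebra.adjoin E₀ ({w} : Set E) = ⊤)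
    (hfin : Module.finrank E₀ E = r) {ζ : E₀} (hζ : IsPrimitiveRoot ζ r)
    {rinv : A} (hrinv : rinv * (r : A) = 1) (ρ : A) :
    Algebra.trace E₀ E (aeval w (lagr rinv ρ r)) = 1 := by
  rw [aeval_lagr (E₀ := E₀), trace_sum_kummer hr hw hadj hfin hζ, pow_zero, mul_one,
    ← map_natCast (algebraMap A E₀), ← map_mul, mul_comm, hrinv, map_one]

end Tower

/-- **KL-K-2**: the special fibre of `E = E₀(w)` has a nontrivial idempotent. -/
theorem kummerIdempotent : KummerIdempotentStatement := by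
  intro A _ _ _ E₀ E _ _ _ _ _ _ _ hinj ϖ hϖ x hx r hr hru ⟨ζ, hζ⟩ u w hw hadj hfin hu hu1
  have hϖp : Prime ϖ := hϖ.prime
  have hr0 : 0 < r := hr.pos
  have hfd : FiniteDimensional E₀ E := Module.finite_of_finrank_pos (by rw [hfin]; exact hr0)
  -- the coordinate in `E`
  have hinjE : Function.Injective (algebraMap E₀ E) := (algebraMap E₀ E).injective
  have hx' : Transcendental A (algebraMap E₀ E x) :=
    (transcendental_algebraMap_iff hinjE).2 hx
  -- `1 / r`
  obtain ⟨rinv, hrinv'⟩ := hru.exists_left_inv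
  have hrinv : rinv * (r : A) = 1 := hrinv'
  -- the root of unity in `E₀`
  have hζ₀ : IsPrimitiveRoot (algebraMap A E₀ ζ) r := hζ.map_of_injective hinj
  have hζr : ζ ^ r = 1 := hζ.pow_eq_one
  have hζ1 : (1 : A) ≠ ζ := by
    intro h
    have := hζ.unique (h ▸ IsPrimitiveRoot.one)
    exact hr.one_lt.ne' this
  -- Gauss closure facts
  have hwC : GC ϖ (algebraMap E₀ E x) w := by
    refine GC.of_pow hϖp hr0 ?_
    rw [hw]
    exact ((mem_gaussClosure_iff hx ϖ u).1 hu).map_tower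
  obtain ⟨c₀, hc₀, hc₀u⟩ := hu1
  have hc₀C : GC ϖ (algebraMap E₀ E x) (algebraMap E₀ E c₀) :=
    ((mem_gaussClosure_iff hx ϖ c₀).1 hc₀).map_tower
  have hu1' : w ^ r - 1 = algebraMap A E ϖ * algebraMap E₀ E c₀ := by
    rw [hw, ← map_one (algebraMap E₀ E), ← map_sub, hc₀u, map_mul,
      ← IsScalarTower.algebraMap_apply A E₀ E]
  -- no idempotent `e_ρ` is divisible by `ϖ`
  have hnot : ∀ ρ : A, ¬ PiDvdSet A E ϖ (gaussClosure A E ϖ (algebraMap E₀ E x))
      (aeval w (lagr rinv ρ r)) := by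
    rintro ρ ⟨c, hc, hec⟩
    have hcC := (mem_gaussClosure_iff hx' ϖ c).1 hc
    have htr := trace_aeval_lagr hr0 hw hadj hfin hζ₀ hrinv ρ
    rw [hec, IsScalarTower.algebraMap_apply A E₀ E, ← Algebra.smul_def, map_smul,
      smul_eq_mul] at htr
    exact not_piDvdSet_one hx hϖp
      ⟨Algebra.trace E₀ E c, (mem_gaussClosure_iff hx ϖ _).2 hcC.trace, htr.symm⟩
  -- the idempotent
  refine ⟨aeval w (lagr rinv 1 r), (mem_gaussClosure_iff hx' ϖ _).2 (hwC.poly hϖp _), ?_,
    hnot 1, ?_⟩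
  · -- `e² - e ∈ ϖ C`
    obtain ⟨Q, hQ⟩ := X_pow_sub_one_dvd_lagr_sq_sub hr0 hζ hrinv (one_pow r)
    refine ⟨algebraMap E₀ E c₀ * aeval w Q,
      (mem_gaussClosure_iff hx' ϖ _).2 (hc₀C.mul hϖp (hwC.poly hϖp Q)), ?_⟩
    have h1 := congrArg (aeval w) hQ
    rw [map_sub, map_mul, map_mul, map_sub, map_pow, aeval_X, map_one, hu1'] at h1
    rw [h1]
    ring
  · -- `1 - e ∉ ϖ C`
    rintro ⟨c, hc, hec⟩
    have hcC := (mem_gaussClosure_iff hx' ϖ c).1 hc
    obtain ⟨Q, hQ⟩ := X_pow_sub_one_dvd_lagr_mul (rinv := rinv) hr0 hζ (one_pow r) hζr hζ1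
    have h1 := congrArg (aeval w) hQ
    rw [map_mul, map_mul, map_sub, map_pow, aeval_X, map_one, hu1'] at h1
    refine hnot ζ ⟨aeval w (lagr rinv ζ r) * c + algebraMap E₀ E c₀ * aeval w Q,
      (mem_gaussClosure_iff hx' ϖ _).2
        (((hwC.poly hϖp _).mul hϖp hcC).add hϖp (hc₀C.mul hϖp (hwC.poly hϖp Q))), ?_⟩
    have h2 : aeval w (lagr rinv ζ r) =
        aeval w (lagr rinv ζ r) * (algebraMap A E ϖ * c) +
          algebraMap A E ϖ * algebraMap E₀ E c₀ * aeval w Q := by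
      rw [← hec, ← h1]
      ring
    exact h2.trans (by ring)

end Fermat.Agent.H87.KL
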