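import Fermat.Agent.H87.KL.GaussCoordModel
import Fermat.Agent.H17.ESD.PsiTwo
import Fermat.Agent.H1.ESD.T3Laurent

/-!
# P-ES / KL-M-QEXP-T (row 602), part 3: the instances `t₂` (for `ℓ = 3`) and `t₃` (for `ℓ = 2`)

`ModelQExpStatement N ℓ jq` implies `ModelQExpStatement N ℓ (t2S ℚ)` and
`ModelQExpStatement N ℓ (t3 ℚ)` for EVERY prime `ℓ` (the modular relations
`j t₂² = (t₂ + 256)³`, `j t₃³ = (t₃ + 27)(t₃ + 243)³` are monic of degree `> m`).
-/

set_option autoImplicit false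

open Polynomial

namespace Fermat.Agent.H87.KL

open Fermat.Agent.H22.KL ModularCurve

theorem ofNat_laurent_ne_zero (n : ℕ) [n.AtLeastTwo] :
    (OfNat.ofNat n : LaurentSeries ℚ) ≠ 0 := by
  have h : (HahnSeries.C (Γ := ℤ) (OfNat.ofNat n : ℚ) : LaurentSeries ℚ) = OfNat.ofNat n :=
    map_ofNat (HahnSeries.C (Γ := ℤ) (R := ℚ)) n
  rw [← h]
  intro h0
  have h1 := HahnSeries.C_injective (Γ := ℤ) (R := ℚ) (h0.trans (map_zero _).symm)
  exact (OfNat.ofNat_ne_zero n) h1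

/-- **KL-M-QEXP-T** for the Hauptmodul `t₂` of level `2`. -/
theorem modelQExp_t2 (N ℓ : ℕ) [NeZero N] (hℓ : ℓ.Prime) :
    ModelQExpStatement N ℓ jq → ModelQExpStatement N ℓ (Fermat.Agent.H17.ESD.t2S ℚ) := by
  have hrel0 := Fermat.Agent.H17.ESD.t2S_identity ℚ
  rw [jqModC_rat] at hrel0
  refine modelQExp_of_rel_monic N ℓ hℓ jq _ ((X + C 256) ^ 3) 2 ?_ ?_
    (Fermat.Agent.H58.modelTranscendental_jq N) ((monic_X_add_C _).pow 3) ?_
  · rw [hrel0, eval₂_pow, eval₂_add, eval₂_X, eval₂_C]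
    simp
  · intro h0
    rw [h0] at hrel0
    simp only [ne_eq, OfNat.ofNat_ne_zero, not_false_eq_true, zero_pow, mul_zero, zero_add] at hrel0
    exact pow_ne_zero 3 (ofNat_laurent_ne_zero 256) hrel0.symm
  · rw [natDegree_pow, natDegree_X_add_C]
    norm_num

/-- **KL-M-QEXP-T** for the Hauptmodul `t₃` of level `3`. -/
theorem modelQExp_t3 (N ℓ : ℕ) [NeZero N] (hℓ : ℓ.Prime) :
    ModelQExpStatement N ℓ jq → ModelQExpStatement N ℓ (Fermat.Agent.H1.ESD.t3 ℚ) := by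
  have hrel0 := Fermat.Agent.H1.ESD.t3_rel ℚ
  rw [jqModC_rat] at hrel0
  refine modelQExp_of_rel_monic N ℓ hℓ jq _ ((X + C 27) * (X + C 243) ^ 3) 3 ?_ ?_
    (Fermat.Agent.H58.modelTranscendental_jq N)
    ((monic_X_add_C _).mul ((monic_X_add_C _).pow 3)) ?_
  · rw [hrel0, eval₂_mul, eval₂_pow, eval₂_add, eval₂_add, eval₂_X, eval₂_C, eval₂_C]
    simp
  · intro h0
    rw [h0] at hrel0
    simp only [ne_eq, OfNat.ofNat_ne_zero, not_false_eq_true, zero_pow, mul_zero, zero_add] at hrel0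
    exact mul_ne_zero (ofNat_laurent_ne_zero 27) (pow_ne_zero 3 (ofNat_laurent_ne_zero 243))
      hrel0.symm
  · rw [((monic_X_add_C (27 : ℤ)).natDegree_mul ((monic_X_add_C (243 : ℤ)).pow 3)),
      natDegree_pow, natDegree_X_add_C, natDegree_X_add_C]
    norm_num

end Fermat.Agent.H87.KL
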