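import Fermat.Agent.H22.ES.KLSetting
import Fermat.Agent.H70.KL.TameAvg
import Fermat.Agent.H3.KLAbh

/-!
# P-ES / KL-N-TAME-UNRAM (row 572, sub-row of 396)

Abhyankar's lemma in the `TameSetup` language of `Fermat.Agent.H70.KL.TameAvg`:
`TameNear A E ϖ x c e` implies `UnramifiedNear A E₁ ϖ s X` for `E₁ = E[s]`, `s ^ e = x - c`.
Adapter on top of `Fermat.Agent.H3.KLAbh.unramifiedNear_of_tameNear`.
-/

set_option autoImplicit false

namespace Fermat.Agent.H87.KL

open Polynomial Fermat.Agent.H22.KL Fermat.Agent.H70.KL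

/-- In a tame setup, `E₁ = E[s]` as an `E`-algebra. -/
theorem TameSetup.adjoin_eq_top {A : Type} [CommRing A] [IsDomain A] {E E₁ : Type} [Field E]
    [Field E₁] [Algebra A E] [Algebra E E₁] [Algebra A E₁] [IsScalarTower A E E₁]
    {x : E} {c : A} {e : ℕ} {ζ : A} {s : E₁} {σ : E₁ →ₐ[E] E₁} (T : TameSetup x c e ζ s σ) :
    Algebra.adjoin E ({s} : Set E₁) = ⊤ := by
  rw [eq_top_iff]
  intro Y _
  obtain ⟨P, rfl⟩ := T.hgen Y
  rw [Algebra.adjoin_singleton_eq_range_aeval]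
  exact ⟨P, rfl⟩

/-- In a tame setup, `E₁` is algebraic over `E`. -/
theorem TameSetup.isAlgebraic {A : Type} [CommRing A] [IsDomain A] {E E₁ : Type} [Field E]
    [Field E₁] [Algebra A E] [Algebra E E₁] [Algebra A E₁] [IsScalarTower A E E₁]
    {x : E} {c : A} {e : ℕ} {ζ : A} {s : E₁} {σ : E₁ →ₐ[E] E₁} (T : TameSetup x c e ζ s σ) :
    Algebra.IsAlgebraic E E₁ := by
  have hs : IsIntegral E s := by
    refine IsIntegral.of_pow T.he ?_
    rw [T.hs]
    exact isIntegral_algebraMap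
  constructor
  intro Y
  obtain ⟨P, rfl⟩ := T.hgen Y
  have h1 : aeval s P =
      ((aeval (⟨s, hs⟩ : integralClosure E E₁) P : integralClosure E E₁) : E₁) :=
    Subalgebra.aeval_coe (integralClosure E E₁) ⟨s, hs⟩ P
  rw [h1]
  exact IsIntegral.isAlgebraic (Subtype.property _)

/-- **Abhyankar's lemma** in the `TameSetup` language. -/
theorem unramifiedNear_of_tameNear {A : Type} [CommRing A] [IsDomain A] {E E₁ : Type} [Field E]
    [Field E₁] [Algebra A E] [Algebra E E₁] [Algebra A E₁] [IsScalarTower A E E₁] [CharZero E]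
    {x : E} {c : A} {e : ℕ} {ζ : A} {s : E₁} {σ : E₁ →ₐ[E] E₁} (T : TameSetup x c e ζ s σ)
    (ϖ : A) (hT : TameNear A E ϖ x c e) : UnramifiedNear A E₁ ϖ s (X : A[X]) := by
  have := TameSetup.isAlgebraic T
  exact Fermat.Agent.H3.KLAbh.unramifiedNear_of_tameNear ϖ x c T.hxc T.he T.hs
    (TameSetup.adjoin_eq_top T) hT

end Fermat.Agent.H87.KL
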