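import Fermat.Agent.H87.KL.GaussCoordInst
import Fermat.Agent.H48.KL.QExpFinal

/-!
# P-ES / KL-M-QEXP-T (row 602), part 4: the unconditional statements for `t₂` and `t₃`

`ModelQExpStatement N ℓ (t2S ℚ)`, `ModelQExpStatement N ℓ (t3 ℚ)` and the transcendence
statements, for every prime `ℓ ∤ N`.
-/

set_option autoImplicit false

open Polynomial

namespace Fermat.Agent.H87.KL

open Fermat.Agent.H22.KL ModularCurve

/-- **KL-M-QEXP, chart `x = t₂`**. -/
theorem modelQExp_t2S (N ℓ : ℕ) [NeZero N] (hℓ : ℓ.Prime) (hN : ¬ ℓ ∣ N) :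
    ModelQExpStatement N ℓ (Fermat.Agent.H17.ESD.t2S ℚ) :=
  modelQExp_t2 N ℓ hℓ (Fermat.Agent.H48.QExp.modelQExp_j N ℓ hℓ hN)

/-- **KL-M-QEXP, chart `x = t₃`**. -/
theorem modelQExp_t3S (N ℓ : ℕ) [NeZero N] (hℓ : ℓ.Prime) (hN : ¬ ℓ ∣ N) :
    ModelQExpStatement N ℓ (Fermat.Agent.H1.ESD.t3 ℚ) :=
  modelQExp_t3 N ℓ hℓ (Fermat.Agent.H48.QExp.modelQExp_j N ℓ hℓ hN)

/-- **KL-M-TR, chart `x = t₂`**. -/
theorem modelTranscendental_t2S (N : ℕ) [NeZero N] :
    ModelTranscendentalStatement N (Fermat.Agent.H17.ESD.t2S ℚ) := by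
  have hrel0 := Fermat.Agent.H17.ESD.t2S_identity ℚ
  rw [jqModC_rat] at hrel0
  refine modelTranscendental_of_rel N jq _ ((X + C 256) ^ 3) 2 ?_ ?_
    (Fermat.Agent.H58.modelTranscendental_jq N)
  · rw [hrel0, eval₂_pow, eval₂_add, eval₂_X, eval₂_C]
    simp
  · intro h0
    rw [h0] at hrel0
    simp only [ne_eq, OfNat.ofNat_ne_zero, not_false_eq_true, zero_pow, mul_zero, zero_add] at hrel0
    exact pow_ne_zero 3 (ofNat_laurent_ne_zero 256) hrel0.symm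

/-- **KL-M-TR, chart `x = t₃`**. -/
theorem modelTranscendental_t3S (N : ℕ) [NeZero N] :
    ModelTranscendentalStatement N (Fermat.Agent.H1.ESD.t3 ℚ) := by
  have hrel0 := Fermat.Agent.H1.ESD.t3_rel ℚ
  rw [jqModC_rat] at hrel0
  refine modelTranscendental_of_rel N jq _ ((X + C 27) * (X + C 243) ^ 3) 3 ?_ ?_
    (Fermat.Agent.H58.modelTranscendental_jq N)
  · rw [hrel0, eval₂_mul, eval₂_pow, eval₂_add, eval₂_add, eval₂_X, eval₂_C, eval₂_C]
    simp
  · intro h0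
    rw [h0] at hrel0
    simp only [ne_eq, OfNat.ofNat_ne_zero, not_false_eq_true, zero_pow, mul_zero, zero_add] at hrel0
    exact mul_ne_zero (ofNat_laurent_ne_zero 27) (pow_ne_zero 3 (ofNat_laurent_ne_zero 243))
      hrel0.symm

end Fermat.Agent.H87.KL
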