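import Fermat.Agent.H87.KL.KumGauss

/-!
# P-ES / KL-M-QEXP-T (row 602): change of coordinate for the Gauss closure

`A` a domain, `ϖ` prime with residue ring `k` (a domain), `E` a field over `A`, `x t : E`
with `t` transcendental over `A` and `x * t ^ m = P(t)`, `P ∈ A[X]`, such that `P̄ / T ^ m` is not
a constant of `k`.  Then `C(x) ⊆ C(t)` (Gauss closures).
-/

set_option autoImplicit false

open Polynomial

namespace Fermat.Agent.H87.KL

open Fermat.Agent.H22.KL
open Fermat.Agent.H67.KLConn (PiDvd)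

/-! ### Homogenisation -/

section Homog

/-- The homogenisation `∑_{i ≤ d} G_i Q^i X^{m (d - i)}` of `G` with respect to `(Q, X ^ m)`. -/
noncomputable def homog {k : Type*} [CommRing k] (Q : k[X]) (m d : ℕ) (G : k[X]) : k[X] :=
  ∑ i ∈ Finset.range (d + 1), C (G.coeff i) * Q ^ i * X ^ (m * (d - i))

theorem homog_map {k k' : Type*} [CommRing k] [CommRing k'] (ρ : k →+* k') (Q : k[X]) (m d : ℕ)
    (G : k[X]) : (homog Q m d G).map ρ = homog (Q.map ρ) m d (G.map ρ) := by
  unfold homog
  rw [Polynomial.map_sum]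
  refine Finset.sum_congr rfl fun i _ => ?_
  simp [Polynomial.coeff_map]

theorem aeval_homog {k : Type*} [CommRing k] {E : Type*} [CommRing E] [Algebra k E] {x t : E}
    (Q : k[X]) (m : ℕ) (hrel : x * t ^ m = aeval t Q) (d : ℕ) {G : k[X]}
    (hd : G.natDegree ≤ d) : aeval t (homog Q m d G) = t ^ (m * d) * aeval x G := by
  unfold homog
  rw [map_sum, aeval_eq_sum_range' (Nat.lt_succ_of_le hd) x, Finset.mul_sum]
  refine Finset.sum_congr rfl fun i hi => ?_
  have hi' : i ≤ d := Nat.lt_succ_iff.mp (Finset.mem_range.mp hi)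
  rw [map_mul, map_mul, map_pow, map_pow, aeval_X, aeval_C, ← hrel, Algebra.smul_def]
  have : m * d = m * i + m * (d - i) := by
    rw [← Nat.mul_add, Nat.add_sub_cancel' hi']
  rw [this, pow_add, pow_mul, mul_pow]
  ring

/-- The homogenisation with respect to `(X ^ m * Q₂, X ^ m)`. -/
theorem homog_X_pow_mul {k : Type*} [CommRing k] (Q₂ : k[X]) (m d : ℕ) {G : k[X]}
    (hd : G.natDegree ≤ d) : homog (X ^ m * Q₂) m d G = X ^ (m * d) * G.comp Q₂ := by
  unfold homog
  rw [Polynomial.comp, eval₂_eq_sum_range' C (Nat.lt_succ_of_le hd), Finset.mul_sum]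
  refine Finset.sum_congr rfl fun i hi => ?_
  have hi' : i ≤ d := Nat.lt_succ_iff.mp (Finset.mem_range.mp hi)
  have : m * d = m * i + m * (d - i) := by
    rw [← Nat.mul_add, Nat.add_sub_cancel' hi']
  rw [this, pow_add, pow_mul, mul_pow]
  ring

/-- The homogenisation of a nonzero polynomial does not vanish, if `Q / X ^ m` is not constant. -/
theorem homog_ne_zero {k : Type*} [CommRing k] [IsDomain k] (Q : k[X]) (m d : ℕ)
    (hQ : ∀ c : k, Q ≠ C c * X ^ m) {G : k[X]} (hG : G ≠ 0) (hd : G.natDegree ≤ d) :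
    homog Q m d G ≠ 0 := by
  by_cases hX : X ^ m ∣ Q
  · -- `Q = X ^ m * Q₂`, `Q₂` not constant
    obtain ⟨Q₂, rfl⟩ := hX
    rw [homog_X_pow_mul Q₂ m d hd]
    refine mul_ne_zero (pow_ne_zero _ X_ne_zero) ?_
    rw [Ne, comp_eq_zero_iff]
    rintro (h | ⟨-, h⟩)
    · exact hG h
    · apply hQ (Q₂.coeff 0)
      rw [h, coeff_C_zero]
      ring
  · -- trailing degree `r < m`
    rw [X_pow_dvd_iff] at hX
    push Not at hX
    classical
    have hex : ∃ j, j < m ∧ Q.coeff j ≠ 0 := hX
    set r := Nat.find hex with hr_def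
    have hrm : r < m := (Nat.find_spec hex).1
    have hr0 : Q.coeff r ≠ 0 := (Nat.find_spec hex).2
    have hrmin : ∀ j < r, Q.coeff j = 0 := by
      intro j hj
      by_contra hne
      exact Nat.find_min hex hj ⟨hj.trans hrm, hne⟩
    obtain ⟨Q₃, hQ₃⟩ : X ^ r ∣ Q := X_pow_dvd_iff.mpr hrmin
    have hQ₃0 : Q₃.coeff 0 ≠ 0 := by
      have := coeff_X_pow_mul Q₃ r 0
      rw [zero_add, ← hQ₃] at this
      rwa [← this]
    set e := G.natDegree with he_def
    have hge : G.coeff e ≠ 0 := by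
      rw [he_def, coeff_natDegree]
      exact leadingCoeff_ne_zero.mpr hG
    -- the coefficient at `r e + m (d - e)`
    have hterm : ∀ i ≤ d, C (G.coeff i) * Q ^ i * X ^ (m * (d - i)) =
        X ^ (r * i + m * (d - i)) * (C (G.coeff i) * Q₃ ^ i) := by
      intro i _
      rw [hQ₃, mul_pow, pow_add, pow_mul]
      ring
    have hcoeff : (homog Q m d G).coeff (r * e + m * (d - e)) = G.coeff e * Q₃.coeff 0 ^ e := by
      unfold homog
      rw [finsetSum_coeff, Finset.sum_eq_single e]
      · rw [hterm e hd, coeff_X_pow_mul', if_pos le_rfl, Nat.sub_self, coeff_C_mul,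
          coeff_zero_eq_eval_zero, eval_pow, ← coeff_zero_eq_eval_zero]
      · intro i hi hie
        have hi' : i ≤ d := Nat.lt_succ_iff.mp (Finset.mem_range.mp hi)
        rcases lt_or_gt_of_ne hie with hlt | hgt
        · rw [hterm i hi', coeff_X_pow_mul', if_neg]
          rw [not_le]
          obtain ⟨a, ha⟩ := Nat.exists_eq_add_of_lt hlt
          obtain ⟨b, hb⟩ := Nat.exists_eq_add_of_le hd
          have h1 : d - e = b := by omega
          have h2 : d - i = a + 1 + b := by omega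
          rw [h1, h2, ha]
          have h3 : (r + 1) * (a + 1) ≤ m * (a + 1) := Nat.mul_le_mul_right _ hrm
          nlinarith
        · rw [coeff_eq_zero_of_natDegree_lt hgt]
          simp
      · intro h
        exact absurd (Finset.mem_range.mpr (Nat.lt_succ_of_le hd)) h
    intro h0
    rw [h0, coeff_zero] at hcoeff
    exact mul_ne_zero hge (pow_ne_zero _ hQ₃0) hcoeff.symm

end Homog

/-! ### Integrality after inverting `t` -/

section Integral

variable {A : Type} [CommRing A] {E : Type} [Field E] [Algebra A E]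

/-- If `x = P(t) / t ^ m` and `z` is integral over `A[x]`, then `t ^ K * z` is integral over
`A[t]` for some `K`. -/
theorem exists_pow_mul_intX {x t : E} (ht0 : t ≠ 0) (P : A[X]) (m : ℕ)
    (hrel : x * t ^ m = aeval t P) {z : E} (hz : IntX (A := A) x z) :
    ∃ K : ℕ, IntX (A := A) t (t ^ K * z) := by
  let _ : Algebra A[X] E := (evX (A := A) t).toAlgebra
  have halg : ∀ H : A[X], algebraMap A[X] E H = aeval t H := fun _ => rfl
  have hu : IsUnit ((evX (A := A) t) X) := by
    rw [evX_apply, aeval_X]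
    exact ht0.isUnit
  let _ : Algebra (Localization.Away (X : A[X])) E :=
    (IsLocalization.Away.lift (S := Localization.Away (X : A[X])) (X : A[X]) hu).toAlgebra
  have hlift : ∀ H : A[X],
      algebraMap (Localization.Away (X : A[X])) E (algebraMap A[X] _ H) = aeval t H := fun H =>
    IsLocalization.Away.lift_eq (S := Localization.Away (X : A[X])) (X : A[X]) hu H
  have : IsScalarTower A[X] (Localization.Away (X : A[X])) E :=
    IsScalarTower.of_algebraMap_eq fun H => (hlift H).symm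
  -- the element `ξ = P / X ^ m` with image `x`
  set ι : Localization.Away (X : A[X]) := IsLocalization.Away.invSelf (X : A[X]) with hι
  have hιt : algebraMap (Localization.Away (X : A[X])) E ι * t = 1 := by
    have h1 := IsLocalization.Away.mul_invSelf (S := Localization.Away (X : A[X])) (X : A[X])
    have h2 := congrArg (algebraMap (Localization.Away (X : A[X])) E) h1
    rw [map_mul, hlift, aeval_X, map_one] at h2
    rw [mul_comm]
    exact h2
  set ξ : Localization.Away (X : A[X]) := algebraMap A[X] _ P * ι ^ m with hξ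
  have hξx : algebraMap (Localization.Away (X : A[X])) E ξ = x := by
    rw [hξ, map_mul, map_pow, hlift, ← hrel, mul_assoc, ← mul_pow, mul_comm t, hιt, one_pow,
      mul_one]
  set φ : A[X] →+* Localization.Away (X : A[X]) :=
    eval₂RingHom ((algebraMap A[X] (Localization.Away (X : A[X]))).comp C) ξ with hφ
  have hcomp : (algebraMap (Localization.Away (X : A[X])) E).comp φ = evX (A := A) x := by
    refine Polynomial.ringHom_ext (fun a => ?_) ?_
    · rw [RingHom.comp_apply, hφ, coe_eval₂RingHom, eval₂_C, RingHom.comp_apply, hlift,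
        evX_apply, aeval_C, aeval_C]
    · rw [RingHom.comp_apply, hφ, coe_eval₂RingHom, eval₂_X, hξx, evX_apply, aeval_X]
  have hz' : IsIntegral (Localization.Away (X : A[X])) z := by
    obtain ⟨p, hp, hpz⟩ := hz
    refine ⟨p.map φ, hp.map φ, ?_⟩
    rw [eval₂_map, hcomp]
    exact hpz
  obtain ⟨⟨_, K, rfl⟩, hK⟩ :=
    hz'.exists_multiple_integral_of_isLocalization (Submonoid.powers (X : A[X])) z
  refine ⟨K, ?_⟩
  have h3 : (⟨(X : A[X]) ^ K, ⟨K, rfl⟩⟩ : Submonoid.powers (X : A[X])) • z = t ^ K * z := by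
    rw [Submonoid.smul_def, Algebra.smul_def, halg, map_pow, aeval_X]
  rw [h3] at hK
  exact hK

end Integral

/-! ### The change of coordinate -/

section Main

variable {A : Type} [CommRing A] {E : Type} [Field E] [Algebra A E]

theorem C_dvd_iff_map_eq_zero {k : Type*} [CommRing k] {ϖ : A} (ρ : A →+* k)
    (hρ : ∀ a : A, ρ a = 0 ↔ ϖ ∣ a) (F : A[X]) : C ϖ ∣ F ↔ F.map ρ = 0 := by
  rw [C_dvd_iff_dvd_coeff, Polynomial.ext_iff]
  refine forall_congr' fun i => ?_
  rw [coeff_map, coeff_zero, hρ]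

/-- **Change of coordinate**, polynomial form. -/
theorem GC.of_rel {k : Type*} [CommRing k] [IsDomain k] {ϖ : A} (hϖ : Prime ϖ) (ρ : A →+* k)
    (hρ : ∀ a : A, ρ a = 0 ↔ ϖ ∣ a) {x t : E} (ht0 : t ≠ 0) (P : A[X]) (m : ℕ)
    (hrel : x * t ^ m = aeval t P) (hnc : ∀ c : k, P.map ρ ≠ C c * X ^ m) {y : E}
    (hy : GC ϖ x y) : GC ϖ t y := by
  obtain ⟨H, hH, hint⟩ := hy
  obtain ⟨K, hK⟩ := exists_pow_mul_intX ht0 P m hrel hint
  refine ⟨X ^ K * homog P m H.natDegree H, ?_, ?_⟩
  · intro hdvd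
    rcases (Polynomial.prime_C_iff.2 hϖ).dvd_or_dvd hdvd with h1 | h2
    · -- `C ϖ ∤ X ^ K`
      have h3 := (C_dvd_iff_dvd_coeff ϖ _).mp h1 K
      rw [coeff_X_pow, if_pos rfl] at h3
      exact hϖ.not_isUnit (isUnit_of_dvd_one h3)
    · -- `C ϖ ∤ homog`
      rw [C_dvd_iff_map_eq_zero ρ hρ, homog_map] at h2
      have hH' : H.map ρ ≠ 0 := fun h => hH ((C_dvd_iff_map_eq_zero ρ hρ H).mpr h)
      exact homog_ne_zero (P.map ρ) m H.natDegree hnc hH' natDegree_map_le h2
  · have h1 : aeval t (X ^ K * homog P m H.natDegree H) * y =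
        aeval t (X ^ (m * H.natDegree) : A[X]) * (t ^ K * (aeval x H * y)) := by
      rw [map_mul, aeval_homog P m hrel H.natDegree le_rfl, map_pow, map_pow, aeval_X]
      ring
    rw [h1]
    exact IntX.mul (IntX.map t _) hK

/-- **Change of coordinate** for the Gauss closure: `C(x) ⊆ C(t)` when `x = P(t) / t ^ m` and
`P̄ / T ^ m` is not constant. -/
theorem gaussClosure_le_of_rel {k : Type*} [CommRing k] [IsDomain k] {ϖ : A} (hϖ : Prime ϖ)
    (ρ : A →+* k) (hρ : ∀ a : A, ρ a = 0 ↔ ϖ ∣ a) {x t : E} (ht : Transcendental A t)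
    (P : A[X]) (m : ℕ) (hrel : x * t ^ m = aeval t P) (hnc : ∀ c : k, P.map ρ ≠ C c * X ^ m) :
    ∀ y ∈ gaussClosure A E ϖ x, y ∈ gaussClosure A E ϖ t := by
  intro y hy
  have : Nontrivial A := nontrivial_of_ne _ _ hϖ.ne_zero
  have ht0 : t ≠ 0 := by
    rintro rfl
    exact ht ⟨X, X_ne_zero, by simp⟩
  rw [mem_gaussClosure_iff ht]
  refine GC.of_rel hϖ ρ hρ ht0 P m hrel hnc ?_
  -- `y ∈ C(x)` gives the polynomial form (no transcendence of `x` needed)
  obtain ⟨h, hh, hnd, hint⟩ := hy
  obtain ⟨H, rfl⟩ := (mem_chartRing_iff x h).1 hh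
  refine ⟨H, fun hd => hnd ?_, (mem_chartClosure_iff x _).1 hint⟩
  obtain ⟨G, rfl⟩ := hd
  refine ⟨aeval x G, aeval_mem_chartRing x G, ?_⟩
  rw [pow_one, map_mul, aeval_C, Algebra.smul_def]

/-- **Change of coordinate** for the Gauss closure over a discrete valuation ring. -/
theorem gaussClosure_le_of_rel_dvr [IsDomain A] [IsDiscreteValuationRing A] {ϖ : A} (hϖ : Irreducible ϖ)
    {x t : E} (ht : Transcendental A t) (P : A[X]) (m : ℕ) (hrel : x * t ^ m = aeval t P)
    (hnc : ∀ c : IsLocalRing.ResidueField A, P.map (IsLocalRing.residue A) ≠ C c * X ^ m) :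
    ∀ y ∈ gaussClosure A E ϖ x, y ∈ gaussClosure A E ϖ t := by
  refine gaussClosure_le_of_rel hϖ.prime (IsLocalRing.residue A) (fun a => ?_) ht P m hrel hnc
  rw [IsLocalRing.residue_eq_zero_iff, hϖ.maximalIdeal_eq, Ideal.mem_span_singleton]

end Main

end Fermat.Agent.H87.KL
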