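import Fermat.Agent.H22.ES.KLModel
import Fermat.Agent.H58.KL.ModelTr
import Fermat.Agent.H87.KL.GaussCoord

/-!
# P-ES / KL-M-QEXP-T (row 602), part 2: `ModelQExpStatement` under a change of coordinate

If `x₀ * t₀ ^ m = P(t₀)` in `ℚ((q))` with `P ∈ ℤ[X]`, `t₀` transcendental (e.g. of nonzero order),
and `P mod ℓ` is not of the form `c X ^ m`, then `ModelQExpStatement N ℓ x₀` implies
`ModelQExpStatement N ℓ t₀`.
-/

set_option autoImplicit false

open Polynomial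

namespace Fermat.Agent.H87.KL

open Fermat.Agent.H22.KL ModularCurve

/-- In a local ring in which the prime `ℓ` is not a unit, an integer prime to `ℓ` is a unit. -/
theorem intCast_notMem_maximalIdeal {A₀ : Type} [CommRing A₀] [IsLocalRing A₀] {ℓ : ℕ}
    (hℓ : ℓ.Prime) (hℓu : ¬ IsUnit ((ℓ : ℕ) : A₀)) {n : ℤ} (hn : ¬ (ℓ : ℤ) ∣ n) :
    ((n : ℤ) : A₀) ∉ IsLocalRing.maximalIdeal A₀ := by
  intro hmem
  have hcop : IsCoprime (ℓ : ℤ) n :=
    (Nat.prime_iff_prime_int.mp hℓ).irreducible.coprime_iff_not_dvd.mpr hn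
  obtain ⟨u, v, huv⟩ := hcop
  have hℓm : ((ℓ : ℕ) : A₀) ∈ IsLocalRing.maximalIdeal A₀ :=
    (IsLocalRing.mem_maximalIdeal _).mpr hℓu
  have h1 : ((u * (ℓ : ℤ) + v * n : ℤ) : A₀) ∈ IsLocalRing.maximalIdeal A₀ := by
    push_cast
    exact Ideal.add_mem _ (Ideal.mul_mem_left _ _ hℓm) (Ideal.mul_mem_left _ _ hmem)
  rw [huv, Int.cast_one] at h1
  exact (IsLocalRing.maximalIdeal A₀).ne_top_iff_one.mp
    (IsLocalRing.maximalIdeal.isMaximal A₀).ne_top h1

section Coord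

variable {K₁ : Type} [Field K₁] [Algebra ℚ K₁] {N : ℕ}
  {A₀ : Type} [CommRing A₀] [Algebra A₀ (ModelField K₁ N)]

/-- `P(t)` for `P ∈ ℤ[X]`, computed in the model field through `A₀`. -/
theorem aeval_map_intCast (t : ModelField K₁ N) (P : ℤ[X]) :
    aeval t (P.map (Int.castRingHom A₀)) = P.eval₂ (Int.castRingHom (ModelField K₁ N)) t := by
  rw [aeval_def, eval₂_map]
  congr 1
  exact RingHom.ext_int _ _

/-- The `q`-expansion of `x = P(t) / t ^ m`. -/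
theorem coe_div_eq_coeffEmb {x₀ t₀ : LaurentSeries ℚ} (P : ℤ[X]) (m : ℕ)
    (hrel : x₀ * t₀ ^ m = P.eval₂ (Int.castRingHom (LaurentSeries ℚ)) t₀)
    {t : ModelField K₁ N} (htq : (t : LaurentSeries K₁) = coeffEmb K₁ t₀) (ht0 : t ≠ 0) :
    ((aeval t (P.map (Int.castRingHom A₀)) / t ^ m : ModelField K₁ N) : LaurentSeries K₁) =
      coeffEmb K₁ x₀ := by
  set x : ModelField K₁ N := aeval t (P.map (Int.castRingHom A₀)) / t ^ m with hx
  have hrel' : x * t ^ m = aeval t (P.map (Int.castRingHom A₀)) :=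
    div_mul_cancel₀ _ (pow_ne_zero _ ht0)
  have hT0 : (t : LaurentSeries K₁) ≠ 0 := fun h0 => ht0 (Subtype.ext h0)
  have h1 : ((x * t ^ m : ModelField K₁ N) : LaurentSeries K₁) =
      P.eval₂ (Int.castRingHom (LaurentSeries K₁)) (t : LaurentSeries K₁) := by
    rw [hrel', aeval_map_intCast]
    have := hom_eval₂ P (Int.castRingHom (ModelField K₁ N))
      (algebraMap (ModelField K₁ N) (LaurentSeries K₁)) t
    rw [show (algebraMap (ModelField K₁ N) (LaurentSeries K₁)).comp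
      (Int.castRingHom (ModelField K₁ N)) = Int.castRingHom (LaurentSeries K₁) from
      RingHom.ext_int _ _] at this
    exact this
  have h2 : coeffEmb K₁ x₀ * (coeffEmb K₁ t₀) ^ m =
      P.eval₂ (Int.castRingHom (LaurentSeries K₁)) (coeffEmb K₁ t₀) := by
    rw [← map_pow, ← map_mul, hrel, hom_eval₂]
    congr 1
    exact RingHom.ext_int _ _
  rw [← htq] at h2
  have h3 : (x : LaurentSeries K₁) * (t : LaurentSeries K₁) ^ m =
      coeffEmb K₁ x₀ * (t : LaurentSeries K₁) ^ m := by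
    rw [h2, ← h1]
    rfl
  exact mul_right_cancel₀ (pow_ne_zero _ hT0) h3

end Coord

/-- Transcendence of the new coordinate `t₀` from the one of `x₀ = P(t₀) / t₀ ^ m`. -/
theorem modelTranscendental_of_rel (N : ℕ) (x₀ t₀ : LaurentSeries ℚ) (P : ℤ[X]) (m : ℕ)
    (hrel : x₀ * t₀ ^ m = P.eval₂ (Int.castRingHom (LaurentSeries ℚ)) t₀) (ht₀ : t₀ ≠ 0)
    (hx : ModelTranscendentalStatement N x₀) : ModelTranscendentalStatement N t₀ := by
  intro K₁ _ _ A₀ _ _ _ _ _ _ t htq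
  have ht0 : t ≠ 0 := by
    rintro rfl
    have h0 : coeffEmb K₁ t₀ = 0 := by
      rw [← htq]
      rfl
    exact ht₀ ((map_eq_zero (coeffEmb K₁)).mp h0)
  have hxq := coe_div_eq_coeffEmb (A₀ := A₀) P m hrel htq ht0
  have hxtr := hx K₁ A₀ _ hxq
  intro halg
  apply hxtr
  have h1 : IsAlgebraic A₀ (aeval t (P.map (Int.castRingHom A₀))) := by
    have hmem : t ∈ Subalgebra.algebraicClosure A₀ (ModelField K₁ N) :=
      (Subalgebra.mem_algebraicClosure A₀ _).mpr halg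
    have h2 := Subalgebra.aeval_coe (Subalgebra.algebraicClosure A₀ (ModelField K₁ N))
      ⟨t, hmem⟩ (P.map (Int.castRingHom A₀))
    rw [← Subalgebra.mem_algebraicClosure, show aeval t (P.map (Int.castRingHom A₀)) =
      aeval ((⟨t, hmem⟩ : Subalgebra.algebraicClosure A₀ (ModelField K₁ N)) :
        ModelField K₁ N) (P.map (Int.castRingHom A₀)) from rfl, h2]
    exact Subtype.property _
  rw [div_eq_mul_inv]
  exact h1.mul (halg.pow m).inv

/-- **KL-M-QEXP-T**, core form: the `q`-expansion principle (Gauss form) in the coordinate `t₀`,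
from the one in the coordinate `x₀ = P(t₀) / t₀ ^ m`. -/
theorem modelQExp_of_rel_core (N ℓ : ℕ) (hℓ : ℓ.Prime) (x₀ t₀ : LaurentSeries ℚ) (P : ℤ[X])
    (m : ℕ) (hrel : x₀ * t₀ ^ m = P.eval₂ (Int.castRingHom (LaurentSeries ℚ)) t₀)
    (htr : ModelTranscendentalStatement N t₀)
    (hnc : ∃ i, i ≠ m ∧ ¬ (ℓ : ℤ) ∣ P.coeff i) :
    ModelQExpStatement N ℓ x₀ → ModelQExpStatement N ℓ t₀ := by
  intro h K₁ _ _ _ A₀ _ _ _ _ _ _ _ hℓu ϖ hϖ t htq a b ha hb hbu
  have ht : Transcendental A₀ t := htr K₁ A₀ t htq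
  have ht0 : t ≠ 0 := by
    rintro rfl
    exact ht ⟨X, X_ne_zero, by simp⟩
  set P' : A₀[X] := P.map (Int.castRingHom A₀) with hP'
  set x : ModelField K₁ N := aeval t P' / t ^ m with hx
  have hrel' : x * t ^ m = aeval t P' := div_mul_cancel₀ _ (pow_ne_zero _ ht0)
  have hxq : (x : LaurentSeries K₁) = coeffEmb K₁ x₀ :=
    coe_div_eq_coeffEmb (A₀ := A₀) P m hrel htq ht0
  have hmem := h K₁ A₀ hℓu ϖ hϖ x hxq a b ha hb hbu
  refine gaussClosure_le_of_rel_dvr hϖ ht P' m hrel' ?_ _ hmem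
  intro c hc
  obtain ⟨i, him, hi⟩ := hnc
  have h1 := congrArg (fun F => F.coeff i) hc
  simp only [coeff_map, coeff_C_mul, coeff_X_pow, if_neg him, mul_zero, hP'] at h1
  have h2 : ((P.coeff i : ℤ) : A₀) ∈ IsLocalRing.maximalIdeal A₀ := by
    rw [← IsLocalRing.residue_eq_zero_iff]
    simpa using h1
  exact intCast_notMem_maximalIdeal hℓ hℓu hi h2

/-- **KL-M-QEXP-T** for a coordinate `t₀` of nonzero order. -/
theorem modelQExp_of_rel (N ℓ : ℕ) (hℓ : ℓ.Prime) (x₀ t₀ : LaurentSeries ℚ) (P : ℤ[X]) (m : ℕ)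
    (hrel : x₀ * t₀ ^ m = P.eval₂ (Int.castRingHom (LaurentSeries ℚ)) t₀) (ht₀ : t₀.order ≠ 0)
    (hnc : ∃ i, i ≠ m ∧ ¬ (ℓ : ℤ) ∣ P.coeff i) :
    ModelQExpStatement N ℓ x₀ → ModelQExpStatement N ℓ t₀ :=
  modelQExp_of_rel_core N ℓ hℓ x₀ t₀ P m hrel
    (Fermat.Agent.H58.modelTranscendental_of_order_ne_zero N t₀ ht₀) hnc

/-- **KL-M-QEXP-T**, monic form: `P` monic of degree `≠ m`, `t₀ ≠ 0`, `x₀` transcendental. -/
theorem modelQExp_of_rel_monic (N ℓ : ℕ) (hℓ : ℓ.Prime) (x₀ t₀ : LaurentSeries ℚ) (P : ℤ[X])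
    (m : ℕ) (hrel : x₀ * t₀ ^ m = P.eval₂ (Int.castRingHom (LaurentSeries ℚ)) t₀)
    (ht₀ : t₀ ≠ 0) (hx : ModelTranscendentalStatement N x₀) (hP : P.Monic)
    (hPm : P.natDegree ≠ m) :
    ModelQExpStatement N ℓ x₀ → ModelQExpStatement N ℓ t₀ := by
  refine modelQExp_of_rel_core N ℓ hℓ x₀ t₀ P m hrel
    (modelTranscendental_of_rel N x₀ t₀ P m hrel ht₀ hx) ⟨P.natDegree, hPm, ?_⟩
  rw [hP.coeff_natDegree]
  intro h
  have := Int.eq_one_of_dvd_one (by positivity) h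
  exact hℓ.one_lt.ne' (by exact_mod_cast this)

end Fermat.Agent.H87.KL
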